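import Fermat.Agent.S59.H765.TraceClosed
import Fermat.Prelude.Def_GaloisRep_LocalConditions

/-!
# Row S59 / row HARD, cell TW, layer 3, leaf CMP, part (T): the Galois half  (helper788)

Abstract, in the vocabulary of the Prelude (`GaloisRepAdic`), no modular forms.

Setting: `𝒪` a Noetherian local ring, `T`, `T'` local `𝒪`-algebras, finite over `𝒪`, with
representations `ρ` over `T`, `ρ'` over `T'`; an `𝒪`-module `M` which is `𝔪_𝒪`-adically separated
and on which BOTH rings act, `a : T →ₐ[𝒪] End_𝒪 M`, `a' : T' →ₐ[𝒪] End_𝒪 M`.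

* `endo_trace_eq_of_frob788` : if the traces of Frobenius act in the same way on `M` for almost
  all primes, `a (tr ρ(Frob_ℓ)) = a' (tr ρ'(Frob_ℓ))`, then `a (tr ρ σ) = a' (tr ρ' σ)` for EVERY
  `σ` (Chebotarev + adic continuity + separatedness of `M`).
* `endo_sub_one_sq_eq_zero788` : if moreover `ρ'` is unipotent on inertia at `q` and `σ` is in an
  inertia group at `q` with `charpoly ρ(σ) = (X - w)(X - w')`, `w w' = 1` (INO), then
  `(a w - 1)² = 0` on `M`.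
* `sub_one_sq_mem788` : the same for a quotient `M = V ⧸ W`, in the form
  `(a w - 1)² V ⊆ W` (the shape of `TwTpow` / (T) with `k = 2`).

Use for (T) of CMP (`coord/S59-TWALG-helper314.md`): `V` = the module `M_Q`, `W = (⟨u⟩_j - 1) V`,
`T = T_Q`, `T' = heckeLocal` of the level `N₀ q_j ∏_{i ≠ j} q_i²`, acting on `V ⧸ W` through the
same operators `⟨ℓ⟩^h T_ℓ`; `ρ'` from layer G4, unipotent at `q_j ∥ N'` by the frozen S34.
-/

set_option autoImplicit false
set_option linter.unusedSectionVars false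
set_option linter.style.haveILetI false

open Polynomial IsLocalRing

namespace Fermat.Agent.S59.TW.Aut.H788

open Fermat.Agent.Lib.Cheb.Spec (Qb GQ)

section Abstract

variable {𝒪 : Type*} [CommRing 𝒪] [IsLocalRing 𝒪] [IsNoetherianRing 𝒪]
  {T : Type} [CommRing T] [IsLocalRing T] [Algebra 𝒪 T] [Module.Finite 𝒪 T]
  {T' : Type} [CommRing T'] [IsLocalRing T'] [Algebra 𝒪 T'] [Module.Finite 𝒪 T']
  {M : Type*} [AddCommGroup M] [Module 𝒪 M]

/-- An element of `𝔪_𝒪^n T` maps `M` into `𝔪_𝒪^n M`. -/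
theorem apply_mem_of_mem_map788 {R : Type*} [CommRing R] [Algebra 𝒪 R]
    (a : R →ₐ[𝒪] Module.End 𝒪 M) (I : Ideal 𝒪) {x : R}
    (hx : x ∈ I.map (algebraMap 𝒪 R)) (m : M) :
    a x m ∈ I • (⊤ : Submodule 𝒪 M) := by
  have hx' : x ∈ Submodule.span R ((algebraMap 𝒪 R) '' (I : Set 𝒪)) := hx
  revert m
  refine Submodule.span_induction
    (p := fun x _ => ∀ m : M, a x m ∈ I • (⊤ : Submodule 𝒪 M)) ?_ ?_ ?_ ?_ hx'
  · rintro y ⟨c, hc, rfl⟩ m
    rw [AlgHom.commutes, Module.algebraMap_end_apply]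
    exact Submodule.smul_mem_smul hc Submodule.mem_top
  · intro m
    simp
  · intro y z _ _ hy hz m
    rw [map_add, LinearMap.add_apply]
    exact Submodule.add_mem _ (hy m) (hz m)
  · intro r y _ hy m
    rw [smul_eq_mul, map_mul, Module.End.mul_apply]
    exact Fermat.Agent.S59.H765.map_mem_smul_top I (a r) (hy m)

/-- Elements of a high power of the maximal ideal of `T` map `M` into `𝔪_𝒪^n M`. -/
theorem exists_pow_apply_mem788 {R : Type} [CommRing R] [IsLocalRing R] [Algebra 𝒪 R]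
    [Module.Finite 𝒪 R] (a : R →ₐ[𝒪] Module.End 𝒪 M) (n : ℕ) :
    ∃ N : ℕ, ∀ x ∈ maximalIdeal R ^ N, ∀ m : M,
      a x m ∈ (maximalIdeal 𝒪 ^ n) • (⊤ : Submodule 𝒪 M) := by
  obtain ⟨e, he⟩ := Fermat.Agent.S59.H765.exists_maximalIdeal_pow_le_map765 (𝒪 := 𝒪) (T := R)
  refine ⟨e * n, fun x hx m => ?_⟩
  have h1 : maximalIdeal R ^ (e * n) ≤ (maximalIdeal 𝒪 ^ n).map (algebraMap 𝒪 R) := by
    rw [pow_mul, Ideal.map_pow]
    exact Ideal.pow_right_mono he n
  exact apply_mem_of_mem_map788 a _ (h1 hx) m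

/-- **Trace transfer on a common module.**  If the traces of Frobenius of `ρ` and `ρ'` act in the
same way on `M` for almost all primes, then the traces of every `σ` act in the same way. -/
theorem endo_trace_eq_of_frob788
    (hsep : ∀ m : M, (∀ n : ℕ, m ∈ (maximalIdeal 𝒪 ^ n) • (⊤ : Submodule 𝒪 M)) → m = 0)
    (a : T →ₐ[𝒪] Module.End 𝒪 M) (a' : T' →ₐ[𝒪] Module.End 𝒪 M)
    (ρ : GaloisRepAdic T) (ρ' : GaloisRepAdic T') (F : Finset ℕ)
    (h : ∀ ℓ : ℕ, ℓ.Prime → ℓ ∉ F → ∀ B : ValuationSubring Qb, B.LiesOverPrime ℓ →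
      ∀ τ : GQ, B.IsFrobeniusAt τ ℓ → a (ρ.trace τ) = a' (ρ'.trace τ)) (σ : GQ) :
    a (ρ.trace σ) = a' (ρ'.trace σ) := by
  apply LinearMap.ext
  intro m
  rw [← sub_eq_zero]
  apply hsep
  intro n
  obtain ⟨N₁, hN₁⟩ := exists_pow_apply_mem788 (𝒪 := 𝒪) a n
  obtain ⟨N₂, hN₂⟩ := exists_pow_apply_mem788 (𝒪 := 𝒪) a' n
  obtain ⟨L₁, hL₁, hc₁⟩ := Fermat.Agent.S59.H765.exists_level_trace_sub_mem ρ N₁
  obtain ⟨L₂, hL₂, hc₂⟩ := Fermat.Agent.S59.H765.exists_level_trace_sub_mem ρ' N₂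
  haveI := hL₁
  haveI := hL₂
  have hL : FiniteDimensional ℚ (L₁ ⊔ L₂ : IntermediateField ℚ Qb) :=
    IntermediateField.finiteDimensional_sup L₁ L₂
  obtain ⟨ℓ, B, τ, hℓ, hℓF, hB, hτ, -, hτσ⟩ :=
    Fermat.Agent.Lib.Cheb.chebotarev (L₁ ⊔ L₂) hL σ F
  have e1 : ρ.trace τ - ρ.trace σ ∈ maximalIdeal T ^ N₁ :=
    hc₁ σ τ fun x hx => hτσ x ((le_sup_left : L₁ ≤ L₁ ⊔ L₂) hx)
  have e2 : ρ'.trace τ - ρ'.trace σ ∈ maximalIdeal T' ^ N₂ :=
    hc₂ σ τ fun x hx => hτσ x ((le_sup_right : L₂ ≤ L₁ ⊔ L₂) hx)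
  have f1 := hN₁ _ e1 m
  have f2 := hN₂ _ e2 m
  have hsplit : a (ρ.trace σ) m - a' (ρ'.trace σ) m =
      a' (ρ'.trace τ - ρ'.trace σ) m - a (ρ.trace τ - ρ.trace σ) m := by
    rw [map_sub, map_sub, LinearMap.sub_apply, LinearMap.sub_apply, h ℓ hℓ hℓF B hB τ hτ]
    abel
  rw [hsplit]
  exact Submodule.sub_mem _ f2 f1

/-- The trace of an endomorphism of a free module of rank two with
`charpoly = (X - w)(X - w')`. -/
theorem trace_eq_add_of_charpoly788 {A : Type*} [CommRing A] [Nontrivial A] {V : Type*}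
    [AddCommGroup V] [Module A V] [Module.Free A V] [Module.Finite A V]
    (hV : Module.finrank A V = 2) (f : Module.End A V) (w w' : A)
    (hf : LinearMap.charpoly f = (X - C w) * (X - C w')) :
    LinearMap.trace A V f = w + w' := by
  refine Fermat.Agent.S59.H765.trace_eq_of_charpoly hV f (w + w') (w * w') ?_
  rw [hf, map_add, map_mul]
  ring

/-- **(T), Galois half.**  If `ρ'` is unipotent on inertia at `q`, the traces of Frobenius of `ρ`
and `ρ'` act in the same way on `M`, and `charpoly ρ(σ) = (X - w)(X - w')` with `w w' = 1` for a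
`σ` in an inertia group at `q`, then `(a w - 1)² = 0` on `M`. -/
theorem endo_sub_one_sq_eq_zero788
    (hsep : ∀ m : M, (∀ n : ℕ, m ∈ (maximalIdeal 𝒪 ^ n) • (⊤ : Submodule 𝒪 M)) → m = 0)
    (a : T →ₐ[𝒪] Module.End 𝒪 M) (a' : T' →ₐ[𝒪] Module.End 𝒪 M)
    (ρ : GaloisRepAdic T) (ρ' : GaloisRepAdic T') (F : Finset ℕ)
    (h : ∀ ℓ : ℕ, ℓ.Prime → ℓ ∉ F → ∀ B : ValuationSubring Qb, B.LiesOverPrime ℓ →
      ∀ τ : GQ, B.IsFrobeniusAt τ ℓ → a (ρ.trace τ) = a' (ρ'.trace τ))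
    (q : ℕ) (hunip : ρ'.IsUnipotentOnInertiaAt q)
    (P : ValuationSubring Qb) (hP : P.LiesOverPrime q) (σ : GQ)
    (hσ : σ ∈ P.inertiaSubgroupIn ℚ) (w w' : T) (hww' : w * w' = 1)
    (hchar : LinearMap.charpoly (ρ.ρ σ) = (X - C w) * (X - C w')) :
    (a w - 1) * (a w - 1) = 0 := by
  have h1 : ρ.trace σ = w + w' := trace_eq_add_of_charpoly788 ρ.finrank_eq _ w w' hchar
  have h2 : ρ'.trace σ = 1 + 1 := by
    refine trace_eq_add_of_charpoly788 ρ'.finrank_eq _ 1 1 ?_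
    rw [hunip P hP σ hσ, map_one]
    ring
  have h3 := endo_trace_eq_of_frob788 hsep a a' ρ ρ' F h σ
  rw [h1, h2, map_add, map_add, map_one] at h3
  have h4 : a w * a w' = 1 := by rw [← map_mul, hww', map_one]
  have h5 : a w' = 1 + 1 - a w := by rw [← h3]; abel
  rw [h5] at h4
  have : (a w - 1) * (a w - 1) = -(a w * (1 + 1 - a w) - 1) := by
    noncomm_ring
  rw [this, h4, sub_self, neg_zero]

end Abstract

section Quotient

variable {𝒪 : Type*} [CommRing 𝒪] [IsLocalRing 𝒪] [IsNoetherianRing 𝒪]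
  {T : Type} [CommRing T] [IsLocalRing T] [Algebra 𝒪 T] [Module.Finite 𝒪 T]
  {T' : Type} [CommRing T'] [IsLocalRing T'] [Algebra 𝒪 T'] [Module.Finite 𝒪 T']
  {V : Type*} [AddCommGroup V] [Module 𝒪 V]

/-- The action induced on the quotient by a stable submodule. -/
noncomputable def quotAction788 {R : Type*} [CommRing R] [Algebra 𝒪 R]
    (a : R →ₐ[𝒪] Module.End 𝒪 V) (W : Submodule 𝒪 V)
    (hW : ∀ t : R, ∀ v ∈ W, a t v ∈ W) : R →ₐ[𝒪] Module.End 𝒪 (V ⧸ W) where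
  toFun t := W.mapQ W (a t) (fun v hv => hW t v hv)
  map_one' := by
    apply LinearMap.ext
    intro x
    obtain ⟨v, rfl⟩ := W.mkQ_surjective x
    simp
  map_mul' s t := by
    apply LinearMap.ext
    intro x
    obtain ⟨v, rfl⟩ := W.mkQ_surjective x
    simp
  map_zero' := by
    apply LinearMap.ext
    intro x
    obtain ⟨v, rfl⟩ := W.mkQ_surjective x
    simp
  map_add' s t := by
    apply LinearMap.ext
    intro x
    obtain ⟨v, rfl⟩ := W.mkQ_surjective x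
    simp
  commutes' c := by
    apply LinearMap.ext
    intro x
    obtain ⟨v, rfl⟩ := W.mkQ_surjective x
    simp [Module.algebraMap_end_apply]

@[simp] theorem quotAction788_mk {R : Type*} [CommRing R] [Algebra 𝒪 R]
    (a : R →ₐ[𝒪] Module.End 𝒪 V) (W : Submodule 𝒪 V)
    (hW : ∀ t : R, ∀ v ∈ W, a t v ∈ W) (t : R) (v : V) :
    quotAction788 a W hW t (W.mkQ v) = W.mkQ (a t v) := rfl

/-- **(T), Galois half, quotient form** (the shape of `TwTpow` with `k = 2`): `T` acts on `V`,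
`W ⊆ V` is a stable submodule with `V ⧸ W` separated, `T'` acts on `V ⧸ W`, the traces of
Frobenius act in the same way on `V ⧸ W`, `ρ'` is unipotent on inertia at `q`.  Then
`(a w - 1)² V ⊆ W` for every root `w` of `charpoly ρ(σ) = (X - w)(X - w')`, `w w' = 1`, `σ` in an
inertia group at `q`. -/
theorem sub_one_sq_mem788
    (a : T →ₐ[𝒪] Module.End 𝒪 V) (W : Submodule 𝒪 V) (hW : ∀ t : T, ∀ v ∈ W, a t v ∈ W)
    (hsep : ∀ m : V ⧸ W,
      (∀ n : ℕ, m ∈ (maximalIdeal 𝒪 ^ n) • (⊤ : Submodule 𝒪 (V ⧸ W))) → m = 0)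
    (a' : T' →ₐ[𝒪] Module.End 𝒪 (V ⧸ W))
    (ρ : GaloisRepAdic T) (ρ' : GaloisRepAdic T') (F : Finset ℕ)
    (h : ∀ ℓ : ℕ, ℓ.Prime → ℓ ∉ F → ∀ B : ValuationSubring Qb, B.LiesOverPrime ℓ →
      ∀ τ : GQ, B.IsFrobeniusAt τ ℓ → ∀ v : V,
        W.mkQ (a (ρ.trace τ) v) = a' (ρ'.trace τ) (W.mkQ v))
    (q : ℕ) (hunip : ρ'.IsUnipotentOnInertiaAt q)
    (P : ValuationSubring Qb) (hP : P.LiesOverPrime q) (σ : GQ)
    (hσ : σ ∈ P.inertiaSubgroupIn ℚ) (w w' : T) (hww' : w * w' = 1)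
    (hchar : LinearMap.charpoly (ρ.ρ σ) = (X - C w) * (X - C w')) (y : V) :
    (a w - 1) ((a w - 1) y) ∈ W := by
  have key := endo_sub_one_sq_eq_zero788 hsep (quotAction788 a W hW) a' ρ ρ' F
    (fun ℓ hℓ hℓF B hB τ hτ => by
      apply LinearMap.ext
      intro x
      obtain ⟨v, rfl⟩ := W.mkQ_surjective x
      rw [quotAction788_mk]
      exact h ℓ hℓ hℓF B hB τ hτ v)
    q hunip P hP σ hσ w w' hww' hchar
  have e1 : ∀ v : V, (quotAction788 a W hW w - 1) (W.mkQ v) = W.mkQ ((a w - 1) v) := by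
    intro v
    rw [LinearMap.sub_apply, LinearMap.sub_apply, Module.End.one_apply, Module.End.one_apply,
      quotAction788_mk, map_sub]
  have h1 : (quotAction788 a W hW w - 1) ((quotAction788 a W hW w - 1) (W.mkQ y)) = 0 := by
    rw [← Module.End.mul_apply, key, LinearMap.zero_apply]
  rw [e1, e1] at h1
  exact (Submodule.Quotient.mk_eq_zero W).mp h1

end Quotient

end Fermat.Agent.S59.TW.Aut.H788
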